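import Fermat.Agent.SchurDiscriminant.Interval

/-!
# The transfinite diameter of an interval
-/

set_option autoImplicit false

noncomputable section

namespace FA.SchurDiscriminant

open Finset Filter Topology

/-- `Σ_{m < n} m log m`. -/
def mLogSum (n : ℕ) : ℝ := ∑ m ∈ range n, (m : ℝ) * Real.log m

/-- `x ^ 2 log x / 2 - x ^ 2 / 4`. -/
def mLogMain (x : ℝ) : ℝ := x ^ 2 / 2 * Real.log x - x ^ 2 / 4

theorem mLogSum_succ (m : ℕ) : mLogSum (m + 1) = mLogSum m + (m : ℝ) * Real.log m :=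
  sum_range_succ _ _

theorem mLogMain_step {m : ℕ} (hm : 0 < m) :
    (m : ℝ) * Real.log m ≤ mLogMain (m + 1 : ℕ) - mLogMain m ∧
      mLogMain (m + 1 : ℕ) - mLogMain m ≤ (m : ℝ) * Real.log m + (Real.log m + 2) := by
  have hx : (1 : ℝ) ≤ m := by exact_mod_cast hm
  have hlog : 0 ≤ Real.log m := Real.log_natCast_nonneg m
  have hx0 : (0 : ℝ) < m := by linarith
  have h1 : Real.log ((m : ℝ) + 1) - Real.log m ≤ 1 / m := by
    rw [← Real.log_div (by positivity) hx0.ne']
    refine (Real.log_le_sub_one_of_pos (by positivity)).trans_eq ?_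
    field_simp
    ring
  have h2 : 1 / ((m : ℝ) + 1) ≤ Real.log ((m : ℝ) + 1) - Real.log m := by
    have h := Real.log_le_sub_one_of_pos (x := (m : ℝ) / (m + 1)) (by positivity)
    rw [Real.log_div hx0.ne' (by positivity)] at h
    have : (m : ℝ) / (m + 1) - 1 = -(1 / (m + 1)) := by field_simp; ring
    linarith
  have e : mLogMain (m + 1 : ℕ) - mLogMain m = ((m : ℝ) + 1) ^ 2 / 2 *
      (Real.log ((m : ℝ) + 1) - Real.log m) + (2 * (m : ℝ) + 1) / 2 * Real.log m -
        (2 * (m : ℝ) + 1) / 4 := by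
    rw [mLogMain, mLogMain]; push_cast; ring
  rw [e]
  constructor
  · have := mul_le_mul_of_nonneg_left h2 (show (0 : ℝ) ≤ ((m : ℝ) + 1) ^ 2 / 2 by positivity)
    rw [show ((m : ℝ) + 1) ^ 2 / 2 * (1 / (m + 1)) = (m + 1) / 2 by field_simp] at this
    linarith
  · have := mul_le_mul_of_nonneg_left h1 (show (0 : ℝ) ≤ ((m : ℝ) + 1) ^ 2 / 2 by positivity)
    have h3 : ((m : ℝ) + 1) ^ 2 / 2 * (1 / m) = (m + 2) / 2 + 1 / (2 * m) := by field_simp; ring
    have h4 : (1 : ℝ) / (2 * m) ≤ 1 := by rw [div_le_one (by positivity)]; linarith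
    linarith

theorem mLogSum_approx (n : ℕ) :
    |mLogMain n - mLogSum n| ≤ (n : ℝ) * (Real.log n + 2) := by
  induction n with
  | zero => simp [mLogMain, mLogSum]
  | succ m ih =>
    rcases m.eq_zero_or_pos with rfl | hm
    · norm_num [mLogMain, mLogSum]
    obtain ⟨h1, h2⟩ := mLogMain_step hm
    have hmono : Real.log m ≤ Real.log (m + 1 : ℕ) :=
      Real.log_le_log (by exact_mod_cast hm) (by simp)
    have hlog : 0 ≤ Real.log m := Real.log_natCast_nonneg m
    have hm0 : (0 : ℝ) ≤ m := Nat.cast_nonneg m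
    have := mul_le_mul_of_nonneg_left hmono hm0
    rw [mLogSum_succ]
    rw [abs_le] at ih ⊢
    push_cast at *
    constructor <;> linarith [ih.1, ih.2]

theorem logBound_eq {n : ℕ} (hn : 0 < n) :
    logBound n = 4 * mLogSum n - mLogSum (2 * n) + ((n : ℝ) * Real.log n -
      ((n - 1 : ℕ) : ℝ) * Real.log (n - 1 : ℕ) +
        ((2 * n - 1 : ℕ) : ℝ) * Real.log (2 * n - 1 : ℕ)) := by
  obtain ⟨l, rfl⟩ := Nat.exists_eq_succ_of_ne_zero hn.ne'
  have e1 : ∀ j, l.succ + j - 1 = l + j := fun j => by omega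
  have h1 : ∑ j ∈ range (l + 1), ((l + j : ℕ) : ℝ) * Real.log (l + j : ℕ) =
      mLogSum (2 * l + 1) - mLogSum l := by
    rw [mLogSum, mLogSum, show 2 * l + 1 = l + (l + 1) by omega,
      sum_range_add _ l (l + 1), add_sub_cancel_left]
  have h2 : ∑ j ∈ range (l + 1), ((j + 1 : ℕ) : ℝ) * Real.log (j + 1 : ℕ) =
      mLogSum (l + 1 + 1) := by
    rw [mLogSum, sum_range_succ' _ (l + 1)]
    simp
  rw [logBound]
  simp only [e1, sum_sub_distrib, sum_add_distrib, ← mul_sum, Nat.succ_eq_add_one]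
  rw [h1, h2, mLogSum_succ (l + 1), show 2 * (l + 1) - 1 = 2 * l + 1 by omega,
    show 2 * (l + 1) = (2 * l + 1) + 1 by omega, mLogSum_succ (2 * l + 1), Nat.add_sub_cancel,
    show (∑ i ∈ range (l + 1), (i : ℝ) * Real.log i) = mLogSum (l + 1) from rfl,
    mLogSum_succ l]
  ring

theorem logBound_approx {n : ℕ} (hn : 0 < n) :
    |logBound n + 2 * Real.log 2 * (n : ℝ) ^ 2| ≤ 10 * n * (Real.log (2 * n) + 2) := by
  have h2 : mLogMain (2 * n : ℕ) = 4 * mLogMain n + 2 * Real.log 2 * (n : ℝ) ^ 2 := by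
    simp only [mLogMain]
    push_cast
    rw [Real.log_mul two_ne_zero (by positivity)]
    ring
  have hA := mLogSum_approx n
  have hB := mLogSum_approx (2 * n)
  have hg : ∀ m : ℕ, m ≤ 2 * n → 0 ≤ (m : ℝ) * Real.log m ∧
      (m : ℝ) * Real.log m ≤ (m : ℝ) * Real.log (2 * n : ℕ) := fun m hm => by
    refine ⟨mul_nonneg (Nat.cast_nonneg m) (Real.log_natCast_nonneg m), ?_⟩
    rcases m.eq_zero_or_pos with rfl | h
    · simp
    · exact mul_le_mul_of_nonneg_left
        (Real.log_le_log (by exact_mod_cast h) (Nat.cast_le.2 hm)) (Nat.cast_nonneg m)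
  obtain ⟨a0, a1⟩ := hg n (by omega)
  obtain ⟨b0, b1⟩ := hg (n - 1) (by omega)
  obtain ⟨c0, c1⟩ := hg (2 * n - 1) (by omega)
  have L0 : 0 ≤ Real.log (2 * n : ℕ) := Real.log_natCast_nonneg _
  have b2 := mul_le_mul_of_nonneg_right
    (show ((n - 1 : ℕ) : ℝ) ≤ n from Nat.cast_le.2 (Nat.sub_le n 1)) L0
  have c2 := mul_le_mul_of_nonneg_right
    (show ((2 * n - 1 : ℕ) : ℝ) ≤ (2 * n : ℕ) from Nat.cast_le.2 (Nat.sub_le _ 1)) L0
  have a2 : Real.log n ≤ Real.log (2 * n : ℕ) :=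
    Real.log_le_log (by exact_mod_cast hn) (Nat.cast_le.2 (by omega))
  have a3 := mul_le_mul_of_nonneg_left a2 (Nat.cast_nonneg (α := ℝ) n)
  rw [logBound_eq hn]
  rw [abs_le] at hA hB ⊢
  push_cast at *
  have n0 : (0 : ℝ) ≤ n := Nat.cast_nonneg n
  constructor <;> linarith [hA.1, hA.2, hB.1, hB.2, mul_nonneg n0 L0]

theorem tendsto_logBound :
    Tendsto (fun n : ℕ => logBound n / (n * (n - 1) : ℕ)) atTop (𝓝 (-(2 * Real.log 2))) := by
  have hr : Tendsto (fun n : ℕ => (n : ℝ) / ((n : ℝ) - 1)) atTop (𝓝 1) := by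
    have := tendsto_natCast_div_add_atTop (-1 : ℝ)
    simpa [← sub_eq_add_neg] using this
  have hinv : Tendsto (fun n : ℕ => (Real.log (2 * n) + 2) / n) atTop (𝓝 0) := by
    have h := ((tendsto_const_div_atTop_nhds_zero_nat (Real.log 2 + 2)).add tendsto_log_div_self)
    rw [add_zero] at h
    refine h.congr' ?_
    filter_upwards [eventually_gt_atTop 0] with n hn
    rw [Real.log_mul two_ne_zero (by positivity)]
    ring
  have hsq : Tendsto (fun n : ℕ => logBound n / (n : ℝ) ^ 2) atTop (𝓝 (-(2 * Real.log 2))) := by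
    rw [← sub_zero (-(2 * Real.log 2))]
    refine (tendsto_const_nhds.sub (squeeze_zero_norm' ?_ (by simpa using hinv.const_mul 10))
      ).congr' (f₁ := fun n : ℕ => -(2 * Real.log 2) -
        (-(logBound n + 2 * Real.log 2 * (n : ℝ) ^ 2) / (n : ℝ) ^ 2)) ?_
    · filter_upwards [eventually_gt_atTop 0] with n hn
      rw [Real.norm_eq_abs, abs_div, abs_neg, abs_of_nonneg (sq_nonneg (n : ℝ)),
        div_le_iff₀ (by positivity)]
      refine (logBound_approx hn).trans_eq ?_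
      field_simp
    · filter_upwards [eventually_gt_atTop 0] with n hn
      field_simp
      ring
  have h := hsq.mul hr
  rw [mul_one] at h
  refine h.congr' ?_
  filter_upwards [eventually_gt_atTop 1] with n hn
  have h1 : ((n * (n - 1) : ℕ) : ℝ) = n * ((n : ℝ) - 1) := by
    rw [Nat.cast_mul, Nat.cast_sub hn.le, Nat.cast_one]
  have : (0 : ℝ) < (n : ℝ) - 1 := sub_pos.2 (by exact_mod_cast hn)
  rw [h1]
  field_simp

theorem tendsto_diameter {a b : ℝ} (hab : a < b) :
    Tendsto (fun n : ℕ => ((b - a) ^ (n * (n - 1)) * Real.exp (logBound n)) ^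
      (1 / ((n * (n - 1) : ℕ) : ℝ))) atTop (𝓝 ((b - a) / 4)) := by
  have h := ((Real.continuous_exp.tendsto _).comp tendsto_logBound).const_mul (b - a)
  rw [Real.exp_neg, show (2 : ℝ) * Real.log 2 = Real.log 4 by
    rw [show (4 : ℝ) = 2 ^ 2 by norm_num, Real.log_pow]; norm_num,
    Real.exp_log (by norm_num), ← div_eq_mul_inv] at h
  refine h.congr' ?_
  filter_upwards [eventually_gt_atTop 1] with n hn
  have hL : 0 < b - a := sub_pos.2 hab
  have hN : n * (n - 1) ≠ 0 := Nat.mul_ne_zero (by omega) (by omega)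
  rw [Real.mul_rpow (by positivity) (Real.exp_pos _).le, one_div,
    Real.pow_rpow_inv_natCast hL.le hN, ← Real.exp_mul, Function.comp_apply, div_eq_mul_inv]

end FA.SchurDiscriminant
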