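import Fermat.Agent.SchurDiscriminant.Limit
import Mathlib.RingTheory.Polynomial.Resultant.Basic

/-!
# Intervals and discriminants
-/

set_option autoImplicit false

noncomputable section

namespace FA.SchurDiscriminant

open Finset Polynomial

variable {n : ℕ}

/-- Schur's constant. -/
theorem sqDelta_le_exp (x : Fin n → ℝ) (hx : x ∈ Set.Icc (0 : Fin n → ℝ) 1) :
    sqDelta x ≤ Real.exp (logBound n) := by
  obtain ⟨x₀, h₀, hpos, hmax⟩ := exists_maximum n
  exact (hmax x hx).trans_eq (maximum_eq n h₀ hpos hmax)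

theorem exists_sqDelta_eq (n : ℕ) :
    ∃ x ∈ Set.Icc (0 : Fin n → ℝ) 1, sqDelta x = Real.exp (logBound n) := by
  obtain ⟨x₀, h₀, hpos, hmax⟩ := exists_maximum n
  exact ⟨x₀, h₀, maximum_eq n h₀ hpos hmax⟩

theorem sqDelta_affine (a L : ℝ) (y : Fin n → ℝ) :
    sqDelta (fun i => a + L * y i) = L ^ (n * (n - 1)) * sqDelta y := by
  have hc : L ^ (n * (n - 1)) = ∏ i : Fin n, ∏ _j ∈ Ioi i, L ^ 2 := by
    simp only [prod_const, Fin.card_Ioi, ← pow_mul, prod_pow_eq_pow_sum]
    congr 1
    rw [← mul_sum, Fin.sum_univ_eq_sum_range (fun i => n - 1 - i),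
      sum_range_reflect (fun i => i), mul_comm 2, sum_range_id_mul_two]
  rw [sqDelta, sqDelta, hc, ← prod_mul_distrib]
  refine prod_congr rfl fun i _ => ?_
  rw [← prod_mul_distrib]
  refine prod_congr rfl fun j _ => ?_
  ring

theorem interval_bound {a b : ℝ} (hab : a < b) {x : Fin n → ℝ} (hx : ∀ i, x i ∈ Set.Icc a b) :
    sqDelta x ≤ (b - a) ^ (n * (n - 1)) * Real.exp (logBound n) := by
  have hL : 0 < b - a := sub_pos.2 hab
  have e : x = fun i => a + (b - a) * ((x i - a) / (b - a)) := funext fun i => by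
    field_simp
    ring
  rw [e, sqDelta_affine]
  refine mul_le_mul_of_nonneg_left (sqDelta_le_exp _ ⟨fun i => ?_, fun i => ?_⟩) (by positivity)
  · exact div_nonneg (sub_nonneg.2 (hx i).1) hL.le
  · rw [Pi.one_apply, div_le_one hL]
    linarith [(hx i).2]

theorem interval_attained {a b : ℝ} (hab : a < b) (n : ℕ) : ∃ x : Fin n → ℝ,
    (∀ i, x i ∈ Set.Icc a b) ∧
      sqDelta x = (b - a) ^ (n * (n - 1)) * Real.exp (logBound n) := by
  obtain ⟨y, hy, he⟩ := exists_sqDelta_eq n
  refine ⟨fun i => a + (b - a) * y i, fun i => ⟨?_, ?_⟩, by rw [sqDelta_affine, he]⟩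
  · nlinarith [hy.1 i, show (0 : Fin n → ℝ) i = 0 from rfl]
  · nlinarith [hy.2 i, show (1 : Fin n → ℝ) i = 1 from rfl]

/-- The discriminant of `∏ (X - x i)`. -/
theorem discr_prod_X_sub_C (x : Fin n → ℝ) (hn : 0 < n) :
    (∏ i, (X - C (x i))).discr = sqDelta x := by
  set f := ∏ i, (X - C (x i)) with hf
  have hdeg : f.natDegree = n := by simp [hf]
  have hm : f.Monic := monic_prod_of_monic _ _ fun i _ => monic_X_sub_C (x i)
  have hsp : f.Splits := Splits.prod fun i _ => .X_sub_C (x i)
  have hroots : f.roots = univ.val.map x := by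
    rw [hf, prod_eq_multiset_prod, ← Function.comp_def (fun a => X - C a) x, ← Multiset.map_map,
      roots_multiset_prod_X_sub_C]
  have hev : ∀ i, f.derivative.eval (x i) = ∏ j ∈ ({i}ᶜ : Finset (Fin n)), (x i - x j) := by
    intro i
    rw [hf, derivative_prod_finset, eval_finsetSum, sum_eq_single i (fun l _ hl => ?_)
      (fun h => absurd (mem_univ i) h), ← compl_singleton]
    · simp [eval_prod]
    · simp only [derivative_sub, derivative_X, derivative_C, sub_zero, mul_one, eval_prod]
      exact prod_eq_zero (mem_erase.2 ⟨hl.symm, mem_univ i⟩) (by simp)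
  have h := resultant_eq_prod_eval f f.derivative (f.natDegree - 1) (natDegree_derivative_le f) hsp
  rw [resultant_deriv (natDegree_pos_iff_degree_pos.1 (hdeg ▸ hn)), hm.leadingCoeff, one_pow,
    one_mul, mul_one, hdeg, hroots, Multiset.map_map] at h
  simp only [Function.comp_def, hev] at h
  rw [← prod_eq_multiset_prod, ← prod_prod_Ioi_mul_eq_prod_prod_off_diag
    (fun u v : Fin n => x v - x u)] at h
  have hs : ∏ i : Fin n, ∏ j ∈ Ioi i, (x i - x j) * (x j - x i) =
      (-1) ^ (n * (n - 1) / 2) * sqDelta x := by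
    have hc : ∏ i : Fin n, ∏ _j ∈ Ioi i, (-1 : ℝ) = (-1) ^ (n * (n - 1) / 2) := by
      simp only [prod_const, Fin.card_Ioi, prod_pow_eq_pow_sum]
      congr 1
      rw [Fin.sum_univ_eq_sum_range (fun i => n - 1 - i), sum_range_reflect (fun i => i),
        sum_range_id]
    rw [← hc, sqDelta, ← prod_mul_distrib]
    refine prod_congr rfl fun i _ => ?_
    rw [← prod_mul_distrib]
    exact prod_congr rfl fun j _ => by ring
  rw [hs] at h
  exact mul_left_cancel₀ (pow_ne_zero _ (by norm_num)) h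

theorem discr_bound {a b : ℝ} (hab : a < b) {f : ℝ[X]} (hf : f.Monic) (hsp : f.Splits)
    (hroot : ∀ z ∈ f.roots, z ∈ Set.Icc a b) :
    f.discr ≤
      (b - a) ^ (f.natDegree * (f.natDegree - 1)) * Real.exp (logBound f.natDegree) := by
  rcases f.natDegree.eq_zero_or_pos with h0 | h0
  · rw [eq_one_of_monic_natDegree_zero hf h0, ← map_one C, discr_C]
    simp [logBound]
  set l := f.roots.toList with hl
  have hlen : l.length = f.natDegree := by
    rw [hl, Multiset.length_toList, ← hsp.natDegree_eq_card_roots]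
  have hfx : f = ∏ i : Fin l.length, (X - C (l.get i)) := by
    conv_lhs => rw [hsp.eq_prod_roots_of_monic hf, ← Multiset.coe_toList f.roots, Multiset.map_coe,
      Multiset.prod_coe, ← hl, ← List.ofFn_get l, List.map_ofFn, List.prod_ofFn]
    rfl
  rw [← hlen]
  conv_lhs => rw [hfx, discr_prod_X_sub_C _ (hlen ▸ h0)]
  exact interval_bound hab fun i => hroot _ (Multiset.mem_toList.1 (l.get_mem i))

end FA.SchurDiscriminant
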