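import Fermat.Agent.Root.SummarySelbergIntegral
import Mathlib.Analysis.SpecialFunctions.Stirling
import Mathlib.Analysis.SpecialFunctions.Pow.Asymptotics

/-!
# The maximum of the squared Vandermonde product on the cube

The `k`-th root of the moments tends to the maximum; Stirling's formula evaluates the limit.
-/

set_option autoImplicit false

noncomputable section

namespace FA.SchurDiscriminant

open Finset MeasureTheory Filter Topology
open scoped Nat

variable {n : ℕ}

/-- `∏_{i < j} (x i - x j) ^ 2`. -/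
def sqDelta (x : Fin n → ℝ) : ℝ := ∏ i : Fin n, ∏ j ∈ Ioi i, (x i - x j) ^ 2

theorem sqDelta_nonneg (x : Fin n → ℝ) : 0 ≤ sqDelta x :=
  prod_nonneg fun _ _ => prod_nonneg fun _ _ => sq_nonneg _

theorem continuous_sqDelta : Continuous (sqDelta (n := n)) := by
  unfold sqDelta
  fun_prop

/-- `Σ_{j < n} (2 j log j + (j + 1) log (j + 1) - (n + j - 1) log (n + j - 1))`. -/
def logBound (n : ℕ) : ℝ :=
  ∑ j ∈ range n, (2 * ((j : ℝ) * Real.log j) + ((j + 1 : ℕ) : ℝ) * Real.log ((j + 1 : ℕ) : ℝ) -
    ((n + j - 1 : ℕ) : ℝ) * Real.log ((n + j - 1 : ℕ) : ℝ))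

theorem exp_mul_log (m : ℕ) : Real.exp ((m : ℝ) * Real.log m) = (m : ℝ) ^ m := by
  rcases m.eq_zero_or_pos with rfl | hm
  · simp
  · rw [Real.exp_nat_mul, Real.exp_log (by exact_mod_cast hm)]

theorem exp_logBound (n : ℕ) : Real.exp (logBound n) =
    ∏ j ∈ range n, (j : ℝ) ^ (2 * j) * ((j : ℝ) + 1) ^ (j + 1) /
      ((n + j - 1 : ℕ) : ℝ) ^ (n + j - 1) := by
  rw [logBound, Real.exp_sum]
  refine prod_congr rfl fun j _ => ?_
  rw [Real.exp_sub, Real.exp_add, exp_mul_log, exp_mul_log, two_mul, Real.exp_add, exp_mul_log,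
    ← pow_add, ← two_mul]
  push_cast
  rfl

theorem log_factorial_bounds (m : ℕ) :
    (m : ℝ) * Real.log m - m ≤ Real.log m ! ∧
      Real.log m ! ≤ (m : ℝ) * Real.log m - m + (1 + Real.log m) := by
  rcases m.eq_zero_or_pos with rfl | hm
  · simp
  have hlog : 0 ≤ Real.log m := Real.log_natCast_nonneg m
  refine ⟨?_, ?_⟩
  · have h := Stirling.le_log_factorial_stirling hm.ne'
    have h2 : 0 ≤ Real.log (2 * Real.pi) := Real.log_nonneg (by linarith [Real.two_le_pi])
    linarith
  · obtain ⟨l, rfl⟩ := Nat.exists_eq_succ_of_ne_zero hm.ne'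
    have h : Stirling.stirlingSeq (l + 1) ≤ Stirling.stirlingSeq 1 :=
      Stirling.stirlingSeq'_antitone (Nat.zero_le l)
    rw [Stirling.stirlingSeq_one, Stirling.stirlingSeq, div_le_iff₀ (by positivity),
      Real.sqrt_mul (by norm_num : (0 : ℝ) ≤ 2), ← mul_assoc, ← mul_assoc,
      div_mul_cancel₀ _ (by positivity)] at h
    have hh := Real.log_le_log (by positivity) h
    rw [Real.log_mul (by positivity) (by positivity), Real.log_mul (by positivity) (by positivity),
      Real.log_exp, Real.log_sqrt (by positivity), Real.log_pow, Real.log_div (by positivity)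
      (by positivity), Real.log_exp] at hh
    push_cast at hlog hh ⊢
    linarith

theorem tendsto_log_div_self : Tendsto (fun k : ℕ => Real.log k / k) atTop (𝓝 0) :=
  Real.isLittleO_log_id_atTop.tendsto_div_nhds_zero.comp tendsto_natCast_atTop_atTop

theorem tendsto_log_factorial (c : ℕ) :
    Tendsto (fun k : ℕ => Real.log (c * k)! / k - c * Real.log k) atTop
      (𝓝 (c * Real.log c - c)) := by
  rcases c.eq_zero_or_pos with rfl | hc
  · simp
  have hd : Tendsto (fun k : ℕ => (1 + Real.log c + Real.log k) / k) atTop (𝓝 0) := by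
    simpa [add_div] using (tendsto_const_div_atTop_nhds_zero_nat (1 + Real.log c)).add
      tendsto_log_div_self
  have hd' := hd.const_add ((c : ℝ) * Real.log c - c)
  rw [add_zero] at hd'
  refine tendsto_of_tendsto_of_tendsto_of_le_of_le' tendsto_const_nhds hd' ?_ ?_
  all_goals filter_upwards [eventually_gt_atTop 0] with k hk
  all_goals
    obtain ⟨h1, h2⟩ := log_factorial_bounds (c * k)
    have hk0 : (0 : ℝ) < k := by exact_mod_cast hk
    have hc0 : (0 : ℝ) < c := by exact_mod_cast hc
    push_cast at h1 h2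
    rw [Real.log_mul hc0.ne' hk0.ne'] at h1 h2
  · rw [le_sub_iff_add_le, le_div_iff₀ hk0]
    linarith
  · rw [sub_le_iff_le_add, div_le_iff₀ hk0]
    have : (1 + Real.log c + Real.log k) / k * k = 1 + Real.log c + Real.log k :=
      div_mul_cancel₀ _ hk0.ne'
    linarith

theorem tendsto_log_factorial_succ (c : ℕ) :
    Tendsto (fun k : ℕ => Real.log (c * k + 1)! / k - c * Real.log k) atTop
      (𝓝 (c * Real.log c - c)) := by
  have hd : Tendsto (fun k : ℕ => Real.log ((c * k + 1 : ℕ) : ℝ) / k) atTop (𝓝 0) := by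
    have h1 : Tendsto (fun k : ℕ => Real.log (c + 1 : ℝ) / k + Real.log k / k) atTop (𝓝 0) := by
      simpa using (tendsto_const_div_atTop_nhds_zero_nat (Real.log (c + 1 : ℝ))).add
        tendsto_log_div_self
    refine tendsto_of_tendsto_of_tendsto_of_le_of_le' tendsto_const_nhds h1 ?_ ?_
    all_goals filter_upwards [eventually_gt_atTop 0] with k hk
    · exact div_nonneg (Real.log_natCast_nonneg _) (Nat.cast_nonneg k)
    · have hk1 : (1 : ℝ) ≤ k := by exact_mod_cast hk
      rw [← add_div, ← Real.log_mul (by positivity) (by positivity)]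
      refine div_le_div_of_nonneg_right (Real.log_le_log (by positivity) ?_) (by positivity)
      push_cast
      nlinarith
  have h := (tendsto_log_factorial c).add hd
  rw [add_zero] at h
  refine h.congr fun k => ?_
  rw [Nat.factorial_succ, Nat.cast_mul, Real.log_mul (by positivity) (by positivity)]
  ring

/-- The moment of order `k`. -/
def cubeMoment (n k : ℕ) : ℝ :=
  ∏ j ∈ range n, (((j * k)! : ℝ) ^ 2 * ((j + 1) * k)!) / (((n + j - 1) * k + 1)! * k !)

theorem cubeMoment_eq (n k : ℕ) :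
    ∫ x in Set.Icc (0 : Fin n → ℝ) 1, sqDelta x ^ k = cubeMoment n k := by
  rw [cubeMoment, ← SelbergIntegral.Summary.uniform_vandermonde_moment]
  congr 1
  funext x
  rw [pow_mul, sq_abs, sqDelta, ← prod_pow]
  simp [prod_pow]

theorem tendsto_log_cubeMoment (n : ℕ) :
    Tendsto (fun k : ℕ => Real.log (cubeMoment n k) / k) atTop (𝓝 (logBound n)) := by
  have h := tendsto_finsetSum (range n) fun j _ =>
    ((((tendsto_log_factorial j).const_mul 2).add (tendsto_log_factorial (j + 1))).sub
      (tendsto_log_factorial_succ (n + j - 1))).sub (tendsto_log_factorial 1)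
  have hz : ∑ j ∈ range n, (2 * (j : ℝ) + (j + 1 : ℕ) - (n + j - 1 : ℕ) - 1) = 0 := by
    have h1 : ∀ j ∈ range n, (2 * (j : ℝ) + (j + 1 : ℕ) - (n + j - 1 : ℕ) - 1) =
        2 * (j : ℝ) - ((n - 1 : ℕ) : ℝ) := fun j hj => by
      rw [show n + j - 1 = n - 1 + j by have := mem_range.1 hj; omega]
      push_cast
      ring
    rw [sum_congr rfl h1, sum_sub_distrib, sum_const, card_range, nsmul_eq_mul, ← mul_sum,
      sub_eq_zero, ← Nat.cast_sum, mul_comm]
    exact_mod_cast sum_range_id_mul_two n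
  have hval : ∑ j ∈ range n, (2 * ((j : ℝ) * Real.log j - j) +
      (((j + 1 : ℕ) : ℝ) * Real.log ((j + 1 : ℕ) : ℝ) - (j + 1 : ℕ)) -
      (((n + j - 1 : ℕ) : ℝ) * Real.log ((n + j - 1 : ℕ) : ℝ) - (n + j - 1 : ℕ)) -
      (((1 : ℕ) : ℝ) * Real.log ((1 : ℕ) : ℝ) - (1 : ℕ))) = logBound n := by
    rw [← sub_zero (logBound n), ← hz, logBound, ← sum_sub_distrib]
    refine sum_congr rfl fun j _ => ?_
    simp
    ring
  rw [hval] at h
  refine h.congr' ?_
  filter_upwards [eventually_gt_atTop 0] with k hk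
  rw [cubeMoment, Real.log_prod (fun j _ => by positivity), sum_div,
    ← add_zero (∑ j ∈ range n, _ / (k : ℝ)), ← zero_mul (Real.log k), ← neg_zero, ← hz,
    ← sum_neg_distrib, sum_mul, ← sum_add_distrib]
  refine sum_congr rfl fun j _ => ?_
  rw [Real.log_div (by positivity) (by positivity), Real.log_mul (by positivity) (by positivity),
    Real.log_mul (by positivity) (by positivity), Real.log_pow, one_mul]
  push_cast
  ring

theorem exists_maximum (n : ℕ) : ∃ x₀ ∈ Set.Icc (0 : Fin n → ℝ) 1, 0 < sqDelta x₀ ∧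
    ∀ x ∈ Set.Icc (0 : Fin n → ℝ) 1, sqDelta x ≤ sqDelta x₀ := by
  have hne : (Set.Icc (0 : Fin n → ℝ) 1).Nonempty := Set.nonempty_Icc.2 zero_le_one
  obtain ⟨x₀, hx₀, hmax⟩ := isCompact_Icc.exists_isMaxOn hne continuous_sqDelta.continuousOn
  refine ⟨x₀, hx₀, lt_of_lt_of_le ?_ (hmax (a := fun i : Fin n => ((i : ℕ) : ℝ) / n) ?_),
    fun x hx => hmax hx⟩
  · refine prod_pos fun i _ => prod_pos fun j hj => pow_two_pos_of_ne_zero (sub_ne_zero.2 ?_)
    have hn : (n : ℝ) ≠ 0 := Nat.cast_ne_zero.2 i.pos.ne'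
    intro h
    have h' : (i : ℕ) = j := by exact_mod_cast (div_left_inj' hn).1 h
    exact (mem_Ioi.1 hj).ne (Fin.ext h')
  · refine ⟨fun i => by positivity, fun i => ?_⟩
    rw [Pi.one_apply, div_le_one (Nat.cast_pos.2 i.pos)]
    exact Nat.cast_le.2 i.isLt.le

theorem cube_volume (n : ℕ) : volume.real (Set.Icc (0 : Fin n → ℝ) 1) = 1 := by
  simp [measureReal_def, Real.volume_Icc_pi]

/-- **The maximum is `exp (logBound n)`.** -/
theorem maximum_eq (n : ℕ) {x₀ : Fin n → ℝ} (hx₀ : x₀ ∈ Set.Icc (0 : Fin n → ℝ) 1)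
    (hpos : 0 < sqDelta x₀) (hmax : ∀ x ∈ Set.Icc (0 : Fin n → ℝ) 1, sqDelta x ≤ sqDelta x₀) :
    sqDelta x₀ = Real.exp (logBound n) := by
  have hint : ∀ k : ℕ, IntegrableOn (fun x => sqDelta x ^ k) (Set.Icc (0 : Fin n → ℝ) 1) :=
    fun k => (continuous_sqDelta.pow k).continuousOn.integrableOn_compact isCompact_Icc
  have hfin : ∀ s : Set (Fin n → ℝ), s ⊆ Set.Icc 0 1 → volume s < ⊤ := fun s hs =>
    (measure_mono hs).trans_lt isCompact_Icc.measure_lt_top
  have hV : ∀ k, 0 < cubeMoment n k := fun k => prod_pos fun j _ => by positivity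
  refine le_antisymm (le_of_forall_lt_imp_le_of_dense fun c hc => ?_) ?_
  · rcases le_or_gt c 0 with h0 | h0
    · exact h0.trans (Real.exp_pos _).le
    set S := {x | c < sqDelta x} ∩ Set.univ.pi fun _ : Fin n => Set.Ioo (0 : ℝ) 1 with hS
    have hopen : IsOpen {x : Fin n → ℝ | c < sqDelta x} :=
      isOpen_lt continuous_const continuous_sqDelta
    have hSne : S.Nonempty := by
      refine mem_closure_iff.1 ?_ _ hopen hc
      rw [closure_pi_set]
      simp only [closure_Ioo (zero_ne_one' ℝ)]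
      exact fun i _ => ⟨hx₀.1 i, hx₀.2 i⟩
    have hSopen : IsOpen S :=
      hopen.inter (isOpen_set_pi Set.finite_univ fun _ _ => isOpen_Ioo)
    have hSsub : S ⊆ Set.Icc 0 1 := fun x hx =>
      ⟨fun i => (hx.2 i trivial).1.le, fun i => (hx.2 i trivial).2.le⟩
    have hμ : 0 < volume.real S :=
      ENNReal.toReal_pos (hSopen.measure_pos volume hSne).ne' (hfin S hSsub).ne
    have hlow : ∀ k : ℕ, 0 < k → Real.log c + Real.log (volume.real S) / k ≤
        Real.log (cubeMoment n k) / k := fun k hk => by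
      have hk0 : (0 : ℝ) < k := by exact_mod_cast hk
      have h1 : c ^ k * volume.real S ≤ cubeMoment n k := by
        rw [← cubeMoment_eq, mul_comm, ← smul_eq_mul, ← setIntegral_const]
        refine le_trans ?_ (setIntegral_mono_set (hint k)
          (.of_forall fun x => pow_nonneg (sqDelta_nonneg x) k) hSsub.eventuallyLE)
        exact setIntegral_mono_on (integrableOn_const (hfin S hSsub).ne) ((hint k).mono_set hSsub)
          hSopen.measurableSet fun x hx => pow_le_pow_left₀ h0.le (le_of_lt hx.1) k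
      have h2 := Real.log_le_log (by positivity) h1
      rw [Real.log_mul (by positivity) hμ.ne', Real.log_pow] at h2
      rw [le_div_iff₀ hk0, add_mul, div_mul_cancel₀ _ hk0.ne']
      linarith
    rw [← Real.exp_log h0]
    refine Real.exp_le_exp.2 (le_of_tendsto_of_tendsto ?_ (tendsto_log_cubeMoment n)
      ((eventually_gt_atTop 0).mono hlow))
    simpa using (tendsto_const_div_atTop_nhds_zero_nat (Real.log (volume.real S))).const_add
      (Real.log c)
  · rw [← Real.exp_log hpos]
    refine Real.exp_le_exp.2 (le_of_tendsto (tendsto_log_cubeMoment n) ?_)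
    filter_upwards [eventually_gt_atTop 0] with k hk
    rw [div_le_iff₀ (by exact_mod_cast hk), mul_comm, ← Real.log_pow]
    refine Real.log_le_log (hV k) ?_
    rw [← cubeMoment_eq]
    refine (setIntegral_mono_on (hint k) (integrableOn_const (hfin _ le_rfl).ne)
      measurableSet_Icc fun x hx => pow_le_pow_left₀ (sqDelta_nonneg x) (hmax x hx) k).trans ?_
    rw [setIntegral_const, cube_volume, one_smul]

end FA.SchurDiscriminant
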